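import Mathlib

/-!
# Ladder polynomials for multiplication by `n` on a Weierstrass curve (x-coordinates only)

`lad b₂ b₄ b₆ b₈ x n = (Aₙ, Bₙ)` is a projective representative `(Aₙ : Bₙ)` of the x-coordinate of
`n • P`, where `P = (x, y)` is a nonsingular affine point of a Weierstrass curve with invariants
`b₂, b₄, b₆, b₈`.  It is defined by the Montgomery ladder (duplication and differential addition),
so no cancellation is ever needed and no division-polynomial theory is used.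

Main results (namespace `Fermat.Agent.EC.Ladder`):
* `rep_nsmul` : `Rep W (n • P) (lad … x n)` (so `n • P = 0 ↔ (lad … x n).2 = 0`).
* `nsmul_eq_zero_iff`, `nsmul_eq_zero_iff_cross` (odd `n`).
-/

namespace Fermat.Agent.EC.Ladder

section Defs

variable {R : Type*} [CommRing R]

/-- Duplication on projective x-coordinates `(a : b)`. -/
def dup (b₂ b₄ b₆ b₈ : R) (p : R × R) : R × R :=
  (p.1 ^ 4 - b₄ * p.1 ^ 2 * p.2 ^ 2 - 2 * b₆ * p.1 * p.2 ^ 3 - b₈ * p.2 ^ 4,
   p.2 * (4 * p.1 ^ 3 + b₂ * p.1 ^ 2 * p.2 + 2 * b₄ * p.1 * p.2 ^ 2 + b₆ * p.2 ^ 3))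

/-- The cross difference `a₁ b₂ - a₂ b₁` of two projective x-coordinates. -/
def cross (p q : R × R) : R := p.1 * q.2 - q.1 * p.2

/-- Differential addition: a representative of `x(Q + R)` from representatives `p`, `q` of
`x(Q)`, `x(R)` and the affine x-coordinate `x` of `R - Q`. -/
def oddStep (b₂ b₄ b₆ x : R) (p q : R × R) : R × R :=
  (2 * p.1 * q.1 * (p.1 * q.2 + q.1 * p.2) + b₂ * p.1 * q.1 * p.2 * q.2
      + b₄ * p.2 * q.2 * (p.1 * q.2 + q.1 * p.2) + b₆ * p.2 ^ 2 * q.2 ^ 2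
      - x * (cross p q) ^ 2,
   (cross p q) ^ 2)

/-- The ladder: `lad b₂ b₄ b₆ b₈ x n` represents the x-coordinate of `n • (x, y)`. -/
def lad (b₂ b₄ b₆ b₈ x : R) : ℕ → R × R
  | 0 => (1, 0)
  | 1 => (x, 1)
  | (n + 2) =>
    if n % 2 = 0 then dup b₂ b₄ b₆ b₈ (lad b₂ b₄ b₆ b₈ x ((n + 2) / 2))
    else oddStep b₂ b₄ b₆ x (lad b₂ b₄ b₆ b₈ x ((n + 2) / 2))
      (lad b₂ b₄ b₆ b₈ x ((n + 2) / 2 + 1))
termination_by n => n
decreasing_by all_goals omega

variable (b₂ b₄ b₆ b₈ x : R)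

@[simp] theorem lad_zero : lad b₂ b₄ b₆ b₈ x 0 = (1, 0) := by rw [lad]

@[simp] theorem lad_one : lad b₂ b₄ b₆ b₈ x 1 = (x, 1) := by rw [lad]

theorem lad_even (m : ℕ) :
    lad b₂ b₄ b₆ b₈ x (2 * m) = dup b₂ b₄ b₆ b₈ (lad b₂ b₄ b₆ b₈ x m) := by
  rcases m with _ | k
  · simp [dup]
  · have h1 : 2 * (k + 1) = 2 * k + 2 := by ring
    have h2 : (2 * k) % 2 = 0 := by omega
    have h3 : (2 * k + 2) / 2 = k + 1 := by omega
    rw [h1, lad, if_pos h2, h3]

theorem lad_odd (m : ℕ) :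
    lad b₂ b₄ b₆ b₈ x (2 * m + 1) =
      oddStep b₂ b₄ b₆ x (lad b₂ b₄ b₆ b₈ x m) (lad b₂ b₄ b₆ b₈ x (m + 1)) := by
  rcases m with _ | k
  · simp only [Nat.mul_zero, Nat.zero_add, lad_one, lad_zero, oddStep, cross]
    refine Prod.ext ?_ ?_
    · simp only [mul_one, mul_zero, add_zero, sub_zero, one_pow]
      ring
    · simp
  · have h1 : 2 * (k + 1) + 1 = (2 * k + 1) + 2 := by ring
    have h2 : ¬ (2 * k + 1) % 2 = 0 := by omega
    have h3 : (2 * k + 1 + 2) / 2 = k + 1 := by omega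
    rw [h1, lad, if_neg h2, h3]

/-- Strong induction principle along the ladder. -/
theorem ladder_induction {P : ℕ → Prop} (h0 : P 0) (h1 : P 1)
    (heven : ∀ m, 1 ≤ m → P m → P (2 * m))
    (hodd : ∀ m, 1 ≤ m → P m → P (m + 1) → P (2 * m + 1)) : ∀ n, P n := by
  intro n
  induction n using Nat.strong_induction_on with
  | _ n ih =>
    rcases Nat.even_or_odd' n with ⟨m, rfl | rfl⟩
    · rcases Nat.eq_zero_or_pos m with rfl | hm
      · simpa using h0
      · exact heven m hm (ih m (by omega))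
    · rcases Nat.eq_zero_or_pos m with rfl | hm
      · simpa using h1
      · exact hodd m hm (ih m (by omega)) (ih (m + 1) (by omega))

end Defs

section Map

variable {R S : Type*} [CommRing R] [CommRing S] (f : R →+* S)

theorem map_dup (b₂ b₄ b₆ b₈ : R) (p : R × R) :
    dup (f b₂) (f b₄) (f b₆) (f b₈) (f p.1, f p.2) =
      (f (dup b₂ b₄ b₆ b₈ p).1, f (dup b₂ b₄ b₆ b₈ p).2) := by
  simp [dup, map_ofNat]

theorem map_cross (p q : R × R) : cross (f p.1, f p.2) (f q.1, f q.2) = f (cross p q) := by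
  simp [cross]

theorem map_oddStep (b₂ b₄ b₆ x : R) (p q : R × R) :
    oddStep (f b₂) (f b₄) (f b₆) (f x) (f p.1, f p.2) (f q.1, f q.2) =
      (f (oddStep b₂ b₄ b₆ x p q).1, f (oddStep b₂ b₄ b₆ x p q).2) := by
  simp [oddStep, cross, map_ofNat]

theorem map_lad (b₂ b₄ b₆ b₈ x : R) (n : ℕ) :
    lad (f b₂) (f b₄) (f b₆) (f b₈) (f x) n =
      (f (lad b₂ b₄ b₆ b₈ x n).1, f (lad b₂ b₄ b₆ b₈ x n).2) := by
  induction n using ladder_induction with
  | h0 => simp
  | h1 => simp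
  | heven m _ ih => rw [lad_even, lad_even, ih, map_dup]
  | hodd m _ ih1 ih2 => rw [lad_odd, lad_odd, ih1, ih2, map_oddStep]

end Map

section Points

open WeierstrassCurve WeierstrassCurve.Affine WeierstrassCurve.Affine.Point

variable {F : Type*} [Field F] (W : WeierstrassCurve.Affine F)

/-- `Rep W Q p` : the pair `p = (a, b)` is a projective representative `(a : b)` of the
x-coordinate of the point `Q` (the point at infinity being `(1 : 0)`). -/
def Rep : W.Point → F × F → Prop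
  | .zero, p => p.2 = 0 ∧ p.1 ≠ 0
  | .some x _ _, p => p.2 ≠ 0 ∧ p.1 = x * p.2

theorem rep_zero_iff (p : F × F) : Rep W 0 p ↔ p.2 = 0 ∧ p.1 ≠ 0 := Iff.rfl

theorem rep_some_iff {x y : F} (h : W.Nonsingular x y) (p : F × F) :
    Rep W (.some x y h) p ↔ p.2 ≠ 0 ∧ p.1 = x * p.2 := Iff.rfl

theorem Rep.snd_eq_zero_iff {Q : W.Point} {p : F × F} (h : Rep W Q p) : p.2 = 0 ↔ Q = 0 := by
  cases Q with
  | zero => exact ⟨fun _ => rfl, fun _ => h.1⟩
  | some x y hxy => exact ⟨fun h0 => absurd h0 h.1, fun h0 => absurd h0 (some_ne_zero hxy)⟩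

/-- On the curve, `(2y + a₁x + a₃)² = 4x³ + b₂x² + 2b₄x + b₆`. -/
theorem psi2_sq {x y : F} (h : W.Equation x y) :
    (y - W.negY x y) ^ 2 = 4 * x ^ 3 + W.b₂ * x ^ 2 + 2 * W.b₄ * x + W.b₆ := by
  rw [equation_iff] at h
  simp only [negY, b₂, b₄, b₆]
  linear_combination 4 * h

/-- The duplication formula, numerator form. -/
theorem dup_num {x y : F} (h : W.Equation x y) :
    (3 * x ^ 2 + 2 * W.a₂ * x + W.a₄ - W.a₁ * y) ^ 2
      + W.a₁ * (3 * x ^ 2 + 2 * W.a₂ * x + W.a₄ - W.a₁ * y) * (y - W.negY x y)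
      - (W.a₂ + 2 * x) * (y - W.negY x y) ^ 2
      = x ^ 4 - W.b₄ * x ^ 2 - 2 * W.b₆ * x - W.b₈ := by
  rw [equation_iff] at h
  simp only [negY, b₄, b₆, b₈]
  linear_combination (-(W.a₁ ^ 2 + 4 * W.a₂ + 8 * x)) * h

variable [DecidableEq F]

theorem rep_dup {Q : W.Point} {p : F × F} (h : Rep W Q p) :
    Rep W (Q + Q) (dup W.b₂ W.b₄ W.b₆ W.b₈ p) := by
  cases Q with
  | zero =>
    obtain ⟨h2, h1⟩ := h
    change Rep W (0 + 0) _
    rw [add_zero, rep_zero_iff]
    simp only [dup, h2]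
    refine ⟨by ring, ?_⟩
    simpa using pow_ne_zero 4 h1
  | some x y hxy =>
    obtain ⟨h2, h1⟩ := h
    have hsq := psi2_sq W hxy.1
    have hnum := dup_num W hxy.1
    have hD : (dup W.b₂ W.b₄ W.b₆ W.b₈ p).2 = p.2 ^ 4 * (y - W.negY x y) ^ 2 := by
      simp only [dup, h1, hsq]; ring
    have hN : (dup W.b₂ W.b₄ W.b₆ W.b₈ p).1 =
        p.2 ^ 4 * (x ^ 4 - W.b₄ * x ^ 2 - 2 * W.b₆ * x - W.b₈) := by
      simp only [dup, h1]; ring
    by_cases hy : y = W.negY x y
    · rw [add_self_of_Y_eq hy]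
      refine ⟨?_, ?_⟩
      · rw [hD, sub_eq_zero.mpr hy]; ring
      · rw [hN, ← hnum, sub_eq_zero.mpr hy]
        have hns := (nonsingular_iff' x y).mp hxy
        have h3 : W.a₁ * y - (3 * x ^ 2 + 2 * W.a₂ * x + W.a₄) ≠ 0 := by
          rcases hns.2 with h3 | h3
          · exact h3
          · exfalso; apply h3
            have : y - W.negY x y = 0 := sub_eq_zero.mpr hy
            simp only [negY] at this
            linear_combination this
        have h4 : (3 * x ^ 2 + 2 * W.a₂ * x + W.a₄ - W.a₁ * y) ≠ 0 := by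
          intro h5; apply h3; linear_combination -h5
        have := mul_ne_zero (pow_ne_zero 4 h2) (pow_ne_zero 2 h4)
        intro h6; apply this; linear_combination h6
    · rw [add_self_of_Y_ne hy]
      have hy' : y - W.negY x y ≠ 0 := sub_ne_zero.mpr hy
      refine ⟨?_, ?_⟩
      · rw [hD]; exact mul_ne_zero (pow_ne_zero 4 h2) (pow_ne_zero 2 hy')
      · rw [hN, hD, slope_of_Y_ne rfl hy, ← hnum]
        simp only [addX]
        field_simp
        ring

omit [DecidableEq F] in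
/-- The sum formula `x(Q + R) + x(R - Q) = (2x₁x₂(x₁+x₂) + b₂x₁x₂ + b₄(x₁+x₂) + b₆)/(x₁-x₂)²`. -/
theorem sum_formula {x₁ y₁ x₂ y₂ : F} (h₁ : W.Equation x₁ y₁) (h₂ : W.Equation x₂ y₂)
    (hx : x₁ ≠ x₂) :
    (W.addX x₁ x₂ ((y₁ - y₂) / (x₁ - x₂)) + W.addX x₂ x₁ ((y₂ - W.negY x₁ y₁) / (x₂ - x₁)))
        * (x₁ - x₂) ^ 2
      = 2 * x₁ * x₂ * (x₁ + x₂) + W.b₂ * x₁ * x₂ + W.b₄ * (x₁ + x₂) + W.b₆ := by
  have hd : x₁ - x₂ ≠ 0 := sub_ne_zero.mpr hx
  have hd' : x₂ - x₁ ≠ 0 := sub_ne_zero.mpr (Ne.symm hx)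
  obtain ⟨l, hl⟩ : ∃ l, l = (y₁ - y₂) / (x₁ - x₂) := ⟨_, rfl⟩
  obtain ⟨l', hl'⟩ : ∃ l', l' = (y₂ - W.negY x₁ y₁) / (x₂ - x₁) := ⟨_, rfl⟩
  rw [← hl, ← hl']
  rw [eq_div_iff hd] at hl
  rw [eq_div_iff hd'] at hl'
  rw [equation_iff] at h₁ h₂
  simp only [negY] at hl'
  simp only [addX, b₂, b₄, b₆]
  linear_combination (l * (x₁ - x₂) + (y₁ - y₂) + W.a₁ * (x₁ - x₂)) * hl
    + (l' * (x₂ - x₁) + (y₂ + y₁ + W.a₁ * x₁ + W.a₃) + W.a₁ * (x₂ - x₁)) * hl'
    + 2 * h₁ + 2 * h₂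

theorem rep_odd {Q R : W.Point} {p q : F × F} {x y : F} (hxy : W.Nonsingular x y)
    (hQ : Rep W Q p) (hR : Rep W R q) (hdiff : R = Q + Point.some x y hxy) :
    Rep W (Q + R) (oddStep W.b₂ W.b₄ W.b₆ x p q) := by
  cases Q with
  | zero =>
    have hRP : R = Point.some x y hxy := by rw [hdiff]; exact zero_add _
    subst hRP
    obtain ⟨p2, p1⟩ := hQ
    obtain ⟨q2, q1⟩ := hR
    change Rep W (0 + Point.some x y hxy) _
    rw [zero_add, rep_some_iff]
    have hc : cross p q = p.1 * q.2 := by simp [cross, p2]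
    refine ⟨?_, ?_⟩
    · simp only [oddStep, hc]
      exact pow_ne_zero 2 (mul_ne_zero p1 q2)
    · simp only [oddStep, hc, p2, q1]
      ring
  | some x₁ y₁ h₁ =>
    cases R with
    | zero =>
      obtain ⟨p2, p1⟩ := hQ
      obtain ⟨q2, q1⟩ := hR
      have hneg : Point.some x₁ y₁ h₁ = -Point.some x y hxy :=
        eq_neg_of_add_eq_zero_left hdiff.symm
      rw [neg_some] at hneg
      have hx1 : x₁ = x := by
        simp only [Point.some.injEq] at hneg
        exact hneg.1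
      change Rep W (Point.some x₁ y₁ h₁ + 0) _
      rw [add_zero, rep_some_iff]
      have hc : cross p q = - (q.1 * p.2) := by simp [cross, q2]
      refine ⟨?_, ?_⟩
      · simp only [oddStep, hc]
        exact pow_ne_zero 2 (neg_ne_zero.mpr (mul_ne_zero q1 p2))
      · simp only [oddStep, hc, q2, p1, hx1]
        ring
    | some x₂ y₂ h₂ =>
      obtain ⟨p2, p1⟩ := hQ
      obtain ⟨q2, q1⟩ := hR
      have hc : cross p q = p.2 * q.2 * (x₁ - x₂) := by simp only [cross, p1, q1]; ring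
      have hS : (oddStep W.b₂ W.b₄ W.b₆ x p q).1 = p.2 ^ 2 * q.2 ^ 2 *
          (2 * x₁ * x₂ * (x₁ + x₂) + W.b₂ * x₁ * x₂ + W.b₄ * (x₁ + x₂) + W.b₆
            - x * (x₁ - x₂) ^ 2) := by
        simp only [oddStep, hc, p1, q1]; ring
      have hS2 : (oddStep W.b₂ W.b₄ W.b₆ x p q).2 = p.2 ^ 2 * q.2 ^ 2 * (x₁ - x₂) ^ 2 := by
        simp only [oddStep, hc]; ring
      have hne : Point.some x₂ y₂ h₂ ≠ Point.some x₁ y₁ h₁ := by
        intro h
        rw [h] at hdiff
        have h0 : Point.some x y hxy = 0 := by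
          have := hdiff.symm
          rwa [add_eq_left] at this
        exact some_ne_zero hxy h0
      by_cases hx : x₁ = x₂
      · subst hx
        have hy : y₁ = W.negY x₁ y₂ := by
          rcases Y_eq_of_X_eq h₁.1 h₂.1 rfl with h | h
          · exfalso; apply hne; subst h; rfl
          · exact h
        rw [add_of_Y_eq rfl hy, rep_zero_iff]
        refine ⟨?_, ?_⟩
        · rw [hS2]; ring
        · rw [hS]
          have hy1 : y₁ - W.negY x₁ y₁ ≠ 0 := by
            intro h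
            apply hne
            have h' : y₁ = W.negY x₁ y₁ := sub_eq_zero.mp h
            have : y₂ = y₁ := by
              have h3 := hy.symm.trans h'
              simp only [negY] at h3
              linear_combination -h3
            subst this; rfl
          have hsq := psi2_sq W h₁.1
          have : p.2 ^ 2 * q.2 ^ 2 * (y₁ - W.negY x₁ y₁) ^ 2 ≠ 0 :=
            mul_ne_zero (mul_ne_zero (pow_ne_zero 2 p2) (pow_ne_zero 2 q2)) (pow_ne_zero 2 hy1)
          intro h; apply this; rw [hsq]; linear_combination h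
      · have hP : Point.some x y hxy = Point.some x₂ y₂ h₂ + -Point.some x₁ y₁ h₁ := by
          rw [hdiff]; abel
        rw [neg_some, add_of_X_ne (Ne.symm hx)] at hP
        simp only [Point.some.injEq] at hP
        obtain ⟨hxP, -⟩ := hP
        rw [slope_of_X_ne (Ne.symm hx)] at hxP
        rw [add_of_X_ne hx, rep_some_iff, slope_of_X_ne hx]
        have hd : x₁ - x₂ ≠ 0 := sub_ne_zero.mpr hx
        have hsum := sum_formula W h₁.1 h₂.1 hx
        rw [← hxP] at hsum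
        refine ⟨?_, ?_⟩
        · rw [hS2]
          exact mul_ne_zero (mul_ne_zero (pow_ne_zero 2 p2) (pow_ne_zero 2 q2)) (pow_ne_zero 2 hd)
        · rw [hS, hS2, ← hsum]; ring

/-- **Multiplication by `n` on x-coordinates**: the ladder value represents `x(n • P)`. -/
theorem rep_nsmul {x y : F} (hxy : W.Nonsingular x y) (n : ℕ) :
    Rep W (n • Point.some x y hxy) (lad W.b₂ W.b₄ W.b₆ W.b₈ x n) := by
  induction n using ladder_induction with
  | h0 => rw [zero_smul, lad_zero]; exact ⟨rfl, one_ne_zero⟩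
  | h1 => rw [one_smul, lad_one]; exact ⟨one_ne_zero, (mul_one x).symm⟩
  | heven m _ ih =>
    have h2 : (2 * m) • Point.some x y hxy = m • Point.some x y hxy + m • Point.some x y hxy := by
      rw [two_mul, add_nsmul]
    rw [h2, lad_even]
    exact rep_dup W ih
  | hodd m _ ih1 ih2 =>
    have h2 : (2 * m + 1) • Point.some x y hxy =
        m • Point.some x y hxy + (m + 1) • Point.some x y hxy := by
      rw [← add_nsmul]; congr 1; ring
    rw [h2, lad_odd]
    exact rep_odd W hxy ih1 ih2 (succ_nsmul _ m)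

/-- Torsion criterion: `n • P = 0` iff the ladder denominator vanishes at `x(P)`. -/
theorem nsmul_eq_zero_iff {x y : F} (hxy : W.Nonsingular x y) (n : ℕ) :
    n • Point.some x y hxy = 0 ↔ (lad W.b₂ W.b₄ W.b₆ W.b₈ x n).2 = 0 :=
  (rep_nsmul W hxy n).snd_eq_zero_iff.symm

/-- Torsion criterion for odd `n = 2m+1`, square-root form. -/
theorem nsmul_eq_zero_iff_cross {x y : F} (hxy : W.Nonsingular x y) (m : ℕ) :
    (2 * m + 1) • Point.some x y hxy = 0 ↔
      cross (lad W.b₂ W.b₄ W.b₆ W.b₈ x m) (lad W.b₂ W.b₄ W.b₆ W.b₈ x (m + 1)) = 0 := by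
  rw [nsmul_eq_zero_iff, lad_odd]
  simp [oddStep]

/-- If `n • P` is affine, its x-coordinate is the ratio of the ladder values. -/
theorem nsmul_x_eq {x y : F} (hxy : W.Nonsingular x y) (n : ℕ) {x' y' : F}
    (h' : W.Nonsingular x' y') (hn : n • Point.some x y hxy = Point.some x' y' h') :
    (lad W.b₂ W.b₄ W.b₆ W.b₈ x n).2 ≠ 0 ∧
      (lad W.b₂ W.b₄ W.b₆ W.b₈ x n).1 = x' * (lad W.b₂ W.b₄ W.b₆ W.b₈ x n).2 := by
  have h := rep_nsmul W hxy n
  rw [hn] at h
  exact h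

end Points

end Fermat.Agent.EC.Ladder
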